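import Mathlib.Algebra.Polynomial.Eval.Degree
import Mathlib.Algebra.Polynomial.AlgebraMap
import Mathlib.Analysis.Normed.Field.Lemmas
import Mathlib.Analysis.SpecificLimits.Basic

/-!
# Polynomials in the shift, acting on sequences

`shiftOp f s n = ∑ f_j s (n + j)`; the polynomials sending a sequence to an eventually vanishing
one are the recurrences it satisfies.
-/

set_option autoImplicit false

noncomputable section

open Finset Polynomial Filter Topology

namespace FA.PisotCriterion

variable {K : Type*} [CommRing K]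

/-- The polynomial `f` in the shift `s ↦ s (· + 1)`. -/
def shiftOp (f : K[X]) : (ℕ → K) →ₗ[K] (ℕ → K) :=
  aeval (R := K) (LinearMap.funLeft K K (fun n : ℕ => n + 1)) f

theorem shiftOp_mul (f g : K[X]) (s : ℕ → K) :
    shiftOp (f * g) s = shiftOp f (shiftOp g s) := by
  simp [shiftOp, map_mul]

theorem shiftOp_add (f g : K[X]) (s : ℕ → K) :
    shiftOp (f + g) s = shiftOp f s + shiftOp g s := by
  simp [shiftOp, map_add]

theorem shiftOp_monomial (k : ℕ) (c : K) (s : ℕ → K) (n : ℕ) :
    shiftOp (monomial k c) s n = c * s (n + k) := by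
  have h : ∀ (k n : ℕ), ((LinearMap.funLeft K K (fun n : ℕ => n + 1)) ^ k) s n = s (n + k) := by
    intro k
    induction k with
    | zero => simp
    | succ k ih =>
      intro n
      rw [pow_succ', Module.End.mul_apply, LinearMap.funLeft_apply, ih, add_assoc, add_comm 1]
  simp [shiftOp, aeval_monomial, h k n]

theorem shiftOp_apply_of_lt {f : K[X]} {N : ℕ} (hf : f.natDegree < N) (s : ℕ → K) (n : ℕ) :
    shiftOp f s n = ∑ j ∈ range N, f.coeff j * s (n + j) := by
  conv_lhs => rw [f.as_sum_range' N hf]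
  have h : shiftOp (∑ j ∈ range N, monomial j (f.coeff j)) s =
      ∑ j ∈ range N, shiftOp (monomial j (f.coeff j)) s := by
    simp [shiftOp, map_sum]
  rw [h, Finset.sum_apply]
  exact Finset.sum_congr rfl fun j _ => shiftOp_monomial j _ s n

theorem shiftOp_apply (f : K[X]) (s : ℕ → K) (n : ℕ) :
    shiftOp f s n = ∑ j ∈ range (f.natDegree + 1), f.coeff j * s (n + j) :=
  shiftOp_apply_of_lt (Nat.lt_succ_self _) s n

theorem shiftOp_X_sub_C (β : K) (s : ℕ → K) (n : ℕ) :
    shiftOp (X - C β) s n = s (n + 1) - β * s n := by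
  rw [sub_eq_add_neg, ← C_neg, shiftOp_add, Pi.add_apply,
    show (X : K[X]) = monomial 1 1 from (monomial_one_one_eq_X).symm,
    show C (-β) = monomial 0 (-β) from (monomial_zero_left (a := -β)).symm, shiftOp_monomial,
    shiftOp_monomial, one_mul, neg_mul, add_zero, ← sub_eq_add_neg]

theorem shiftOp_geom (f : K[X]) (c θ : K) (n : ℕ) :
    shiftOp f (fun m => c * θ ^ m) n = f.eval θ * (c * θ ^ n) := by
  rw [shiftOp_apply, eval_eq_sum_range, Finset.sum_mul]
  refine Finset.sum_congr rfl fun j _ => ?_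
  rw [pow_add]
  ring

theorem map_shiftOp {L : Type*} [CommRing L] (φ : K →+* L) (f : K[X]) (s : ℕ → K) (n : ℕ) :
    φ (shiftOp f s n) = shiftOp (f.map φ) (fun m => φ (s m)) n := by
  induction f using Polynomial.induction_on' with
  | add p q hp hq => simp [shiftOp_add, Polynomial.map_add, map_add, hp, hq]
  | monomial k c => simp [shiftOp_monomial, Polynomial.map_monomial]

theorem shiftOp_eventually_zero (f : K[X]) {s : ℕ → K} (h : ∀ᶠ n in atTop, s n = 0) :
    ∀ᶠ n in atTop, shiftOp f s n = 0 := by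
  obtain ⟨N, hN⟩ := eventually_atTop.1 h
  refine eventually_atTop.2 ⟨N, fun n hn => ?_⟩
  rw [shiftOp_apply]
  exact Finset.sum_eq_zero fun j _ => by rw [hN _ (le_add_right hn), mul_zero]

section normed

variable {𝕜 : Type*} [NormedField 𝕜]

theorem tendsto_shiftOp (f : 𝕜[X]) {s : ℕ → 𝕜} (h : Tendsto s atTop (𝓝 0)) :
    Tendsto (shiftOp f s) atTop (𝓝 0) := by
  have h1 : Tendsto (fun n => ∑ j ∈ range (f.natDegree + 1), f.coeff j * s (n + j)) atTop
      (𝓝 (∑ j ∈ range (f.natDegree + 1), f.coeff j * 0)) :=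
    tendsto_finsetSum _ fun j _ => ((tendsto_add_atTop_iff_nat j).2 h).const_mul _
  simp only [mul_zero, Finset.sum_const_zero] at h1
  exact h1.congr fun n => (shiftOp_apply f s n).symm

/-- A null sequence which is eventually geometric with a ratio outside the open disc vanishes. -/
theorem eventually_zero_of_geometric {u : ℕ → 𝕜} {β : 𝕜} (hβ : 1 ≤ ‖β‖)
    (hu : Tendsto u atTop (𝓝 0)) (h : ∀ᶠ n in atTop, shiftOp (X - C β) u n = 0) :
    ∀ᶠ n in atTop, u n = 0 := by
  obtain ⟨N, hN⟩ := eventually_atTop.1 h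
  refine eventually_atTop.2 ⟨N, fun n hn => ?_⟩
  have hstep : ∀ k, u (n + k) = β ^ k * u n := by
    intro k
    induction k with
    | zero => simp
    | succ k ih =>
      have h1 := hN (n + k) (le_add_right hn)
      rw [shiftOp_X_sub_C, sub_eq_zero] at h1
      rw [← add_assoc, h1, ih, pow_succ']
      ring
  have hlim : Tendsto (fun k => u (n + k)) atTop (𝓝 0) :=
    hu.comp (tendsto_atTop_mono (fun k => Nat.le_add_left k n) tendsto_id)
  have hle : ∀ k, ‖u n‖ ≤ ‖u (n + k)‖ := fun k => by
    rw [hstep, norm_mul, norm_pow]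
    exact le_mul_of_one_le_left (norm_nonneg _) (one_le_pow₀ hβ)
  have := ge_of_tendsto' (tendsto_zero_iff_norm_tendsto_zero.1 hlim) hle
  exact norm_le_zero_iff.1 this

end normed

theorem eventually_zero_of_int {s : ℕ → ℤ} (h : Tendsto (fun n => (s n : ℝ)) atTop (𝓝 0)) :
    ∀ᶠ n in atTop, s n = 0 := by
  filter_upwards [Metric.tendsto_nhds.1 h 1 one_pos] with n hn
  rw [Real.dist_eq, sub_zero] at hn
  exact Int.abs_lt_one_iff.1 (by exact_mod_cast hn)

end FA.PisotCriterion

end
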