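import Mathlib.Analysis.Complex.Basic
import Mathlib.FieldTheory.IntermediateField.Adjoin.Basic
import Mathlib.FieldTheory.Minpoly.IsIntegrallyClosed
import Mathlib.FieldTheory.Perfect
import Mathlib.RingTheory.Polynomial.RationalRoot
import Mathlib.RingTheory.Noetherian.Basic
import Mathlib.LinearAlgebra.Basis.VectorSpace
import Fermat.Agent.PisotCriterion.Op

/-!
# The algebraic half of Pisot's theorem

`θ > 1`, `λ ≠ 0`, integers `a n` with `λ θ ^ n - a n → 0` satisfying eventually a monic rational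
linear recurrence: `θ` is an algebraic integer, its other conjugates lie in the open unit disc
and `λ ∈ ℚ(θ)`.
-/

set_option autoImplicit false

noncomputable section

open Finset Polynomial Filter Topology
open scoped IntermediateField

namespace FA.PisotCriterion

/-- A Pisot number. -/
def IsPisot (θ : ℝ) : Prop :=
  1 < θ ∧ IsIntegral ℤ θ ∧ ∀ z : ℂ, aeval z (minpoly ℤ θ) = 0 → z ≠ (θ : ℂ) → ‖z‖ < 1

variable {θ lam : ℝ} {a : ℕ → ℤ}

/-- A recurrence of `a` has `θ` as a root. -/
theorem aeval_eq_zero_of_annihilates (hθ : 1 < θ) (hlam : lam ≠ 0)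
    (hε : Tendsto (fun n => lam * θ ^ n - a n) atTop (𝓝 0)) {R : ℚ[X]}
    (h : ∀ᶠ n in atTop, shiftOp R (fun k => (a k : ℚ)) n = 0) : aeval θ R = 0 := by
  set f := R.map (algebraMap ℚ ℝ) with hf
  set e : ℕ → ℝ := fun n => lam * θ ^ n - a n with he
  have ha : (fun n => (a n : ℝ)) = (fun n => lam * θ ^ n) - e := by
    funext n; simp [he]
  have h1 : ∀ᶠ n in atTop, f.eval θ * (lam * θ ^ n) = shiftOp f e n := by
    filter_upwards [h] with n hn
    have h2 := congrArg (algebraMap ℚ ℝ) hn
    simp only [map_shiftOp, map_intCast, map_zero] at h2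
    rw [ha, map_sub, Pi.sub_apply, shiftOp_geom, sub_eq_zero] at h2
    exact h2
  have h3 := tendsto_zero_iff_abs_tendsto_zero _ |>.1
    ((tendsto_shiftOp f hε).congr' (h1.mono fun n hn => hn.symm))
  have h4 : |f.eval θ * lam| ≤ 0 := ge_of_tendsto' h3 fun n => by
    rw [Function.comp_apply, ← mul_assoc, abs_mul _ (θ ^ n)]
    refine le_mul_of_one_le_right (abs_nonneg _) ?_
    rw [abs_pow]
    exact one_le_pow₀ (hθ.le.trans (le_abs_self θ))
  rw [← eval_map_algebraMap, ← hf]
  exact (mul_eq_zero.1 (abs_nonpos_iff.1 h4)).resolve_right hlam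

/-- `θ` is an algebraic integer, as soon as `λ θ ^ n - a n = o (θ ^ n)`. -/
theorem isIntegral_of_isLittleO (hθ : 1 < θ) (hlam : lam ≠ 0)
    (hε : Tendsto (fun n => (lam * θ ^ n - a n) / θ ^ n) atTop (𝓝 0)) {R : ℚ[X]} (hR : R.Monic)
    (h : ∀ᶠ n in atTop, shiftOp R (fun k => (a k : ℚ)) n = 0) : IsIntegral ℤ θ := by
  obtain ⟨N, hN⟩ := eventually_atTop.1 h
  have hθn : ∀ n, (0 : ℝ) < θ ^ n := fun n => pow_pos (by linarith) n
  -- the integral sequences with this recurrence, paired with their growth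
  let W : Submodule ℤ ((ℕ → ℤ) × ℝ) :=
    { carrier := {p | (∀ n, shiftOp R (fun k => (p.1 k : ℚ)) n = 0) ∧
        Tendsto (fun n => (p.1 n : ℝ) / θ ^ n) atTop (𝓝 p.2)}
      zero_mem' := ⟨fun n => by simp [shiftOp_apply], by simp⟩
      add_mem' := fun {p q} hp hq => ⟨fun n => by
          have e : (fun k => (((p + q).1 k : ℤ) : ℚ)) =
              (fun k => (p.1 k : ℚ)) + fun k => (q.1 k : ℚ) := by funext k; simp
          rw [e, map_add, Pi.add_apply, hp.1, hq.1, add_zero],
        (hp.2.add hq.2).congr fun n => by simp [add_div]⟩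
      smul_mem' := fun t p hp => ⟨fun n => by
          have e : (fun k => (((t • p).1 k : ℤ) : ℚ)) = (t : ℚ) • fun k => (p.1 k : ℚ) := by
            funext k; simp
          rw [e, map_smul, Pi.smul_apply, hp.1, smul_zero],
        by simpa [mul_div_assoc] using hp.2.const_mul (t : ℝ)⟩ }
  let win : W →ₗ[ℤ] (Fin R.natDegree → ℤ) :=
    { toFun := fun p i => p.1.1 i
      map_add' := fun p q => rfl
      map_smul' := fun t p => rfl }
  have hinj : Function.Injective win := by
    rw [← LinearMap.ker_eq_bot, LinearMap.ker_eq_bot']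
    rintro ⟨⟨v, x⟩, hv, hx⟩ hp
    dsimp only at hv hx
    have hv0 : ∀ n, v n = 0 := fun n => by
      induction n using Nat.strong_induction_on with
      | _ n ih =>
        rcases lt_or_ge n R.natDegree with hn | hn
        · exact congrFun hp ⟨n, hn⟩
        · have h1 := hv (n - R.natDegree)
          rw [shiftOp_apply, Finset.sum_range_succ, hR.coeff_natDegree,
            Nat.sub_add_cancel hn, one_mul, Finset.sum_eq_zero fun j hj => by
              rw [show v (n - R.natDegree + j) = 0 from ih _ (by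
                simp only [mem_range] at hj; omega), Int.cast_zero, mul_zero]] at h1
          simpa using h1
    have hx0 : x = 0 := by
      refine tendsto_nhds_unique hx ?_
      simp [hv0]
    exact Subtype.ext (Prod.ext (funext hv0) hx0)
  have : IsNoetherian ℤ W := isNoetherian_of_injective win hinj
  have hNfg : (W.map (LinearMap.snd ℤ (ℕ → ℤ) ℝ)).FG :=
    (Module.Finite.iff_fg.1 inferInstance).map _
  have hmem : ∀ m, lam * θ ^ (N + m) ∈ W.map (LinearMap.snd ℤ (ℕ → ℤ) ℝ) := fun m => by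
    refine ⟨(fun n => a (N + m + n), lam * θ ^ (N + m)), ⟨fun n => ?_, ?_⟩, rfl⟩
    · rw [shiftOp_apply]
      refine (Finset.sum_congr rfl fun j _ => ?_).trans
        ((shiftOp_apply R _ (N + m + n)).symm.trans (hN _ (by omega)))
      simp only [add_assoc]
    · have h1 : Tendsto (fun n => (lam * θ ^ (N + m + n) - a (N + m + n)) / θ ^ n) atTop
          (𝓝 0) := by
        have h3 := (hε.comp (tendsto_atTop_mono (fun n => Nat.le_add_left n (N + m))
          tendsto_id)).mul_const (θ ^ (N + m))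
        rw [zero_mul] at h3
        refine h3.congr fun n => ?_
        simp only [Function.comp_apply, pow_add θ (N + m) n]
        field_simp [(hθn n).ne', (hθn (N + m)).ne']
      have h2 := (tendsto_const_nhds (x := lam * θ ^ (N + m))).sub h1
      rw [sub_zero] at h2
      refine h2.congr fun n => ?_
      rw [eq_div_iff (hθn n).ne', sub_mul, div_mul_cancel₀ _ (hθn n).ne', pow_add θ (N + m) n]
      ring
  set M' := Submodule.span ℤ (Set.range fun m => lam * θ ^ (N + m)) with hM'
  have hle : M' ≤ W.map (LinearMap.snd ℤ (ℕ → ℤ) ℝ) :=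
    Submodule.span_le.2 (Set.range_subset_iff.2 hmem)
  have hfg : M'.FG := by
    have : Module.Finite ℤ (W.map (LinearMap.snd ℤ (ℕ → ℤ) ℝ)) := .of_fg hNfg
    exact Submodule.FG.of_le hNfg hle
  refine isIntegral_of_smul_mem_submodule M' ?_ hfg θ fun x hx => ?_
  · intro hbot
    have : lam * θ ^ (N + 0) ∈ M' := Submodule.subset_span ⟨0, rfl⟩
    rw [hbot, Submodule.mem_bot] at this
    exact mul_ne_zero hlam (hθn _).ne' this
  · refine Submodule.span_induction ?_ (by simp) (fun u v _ _ hu hv => ?_)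
      (fun t u _ hu => ?_) hx
    · rintro _ ⟨m, rfl⟩
      refine Submodule.subset_span ⟨m + 1, ?_⟩
      simp only [smul_eq_mul, ← add_assoc, pow_succ]
      ring
    · rw [smul_add]; exact M'.add_mem hu hv
    · rw [smul_comm]; exact M'.smul_mem t hu

/-- `θ` is an algebraic integer. -/
theorem isIntegral_of_recurrence (hθ : 1 < θ) (hlam : lam ≠ 0)
    (hε : Tendsto (fun n => lam * θ ^ n - a n) atTop (𝓝 0)) {R : ℚ[X]} (hR : R.Monic)
    (h : ∀ᶠ n in atTop, shiftOp R (fun k => (a k : ℚ)) n = 0) : IsIntegral ℤ θ := by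
  refine isIntegral_of_isLittleO hθ hlam (squeeze_zero_norm (fun n => ?_)
    (tendsto_zero_iff_norm_tendsto_zero.1 hε)) hR h
  rw [norm_div, norm_pow]
  exact div_le_self (norm_nonneg _) (one_le_pow₀ (hθ.le.trans (Real.le_norm_self θ)))

/-- An integral polynomial with root `θ` annihilates `a`. -/
theorem eventually_annihilates_of_root {G : ℤ[X]} (hG : aeval θ G = 0)
    (hε : Tendsto (fun n => lam * θ ^ n - a n) atTop (𝓝 0)) :
    ∀ᶠ n in atTop, shiftOp G a n = 0 := by
  refine eventually_zero_of_int ?_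
  set e : ℕ → ℝ := fun n => lam * θ ^ n - a n with he
  set f := G.map (Int.castRingHom ℝ) with hf
  have h1 : ∀ n, (shiftOp G a n : ℝ) = -shiftOp f e n := fun n => by
    have h2 : ((shiftOp G a n : ℤ) : ℝ) = shiftOp f ((fun m => lam * θ ^ m) - e) n := by
      refine (map_shiftOp (Int.castRingHom ℝ) _ a n).trans ?_
      rw [← hf]
      exact congrArg (fun s => shiftOp f s n) (funext fun m => by simp [he])
    have h3 : f.eval θ = 0 := by
      rw [hf, eval_map, ← algebraMap_int_eq, ← aeval_def, hG]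
    rw [h2, map_sub, Pi.sub_apply, shiftOp_geom, h3, zero_mul, zero_sub]
  simpa [h1] using (tendsto_shiftOp f hε).neg

/-- The minimal polynomial annihilates `a`. -/
theorem eventually_minpoly_annihilates (hε : Tendsto (fun n => lam * θ ^ n - a n) atTop (𝓝 0)) :
    ∀ᶠ n in atTop, shiftOp (minpoly ℤ θ) a n = 0 :=
  eventually_annihilates_of_root (minpoly.aeval ℤ θ) hε

/-- The other conjugates lie in the open unit disc. -/
theorem norm_lt_one_of_annihilates (hθ : 1 < θ) (hlam : lam ≠ 0) (hint : IsIntegral ℤ θ)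
    (hε : Tendsto (fun n => lam * θ ^ n - a n) atTop (𝓝 0)) {z : ℂ}
    (hz : aeval z (minpoly ℤ θ) = 0) (hne : z ≠ (θ : ℂ)) : ‖z‖ < 1 := by
  by_contra hbig
  push Not at hbig
  set f := (minpoly ℤ θ).map (Int.castRingHom ℂ) with hf
  have hroot : ∀ w : ℂ, f.eval w = aeval w (minpoly ℤ θ) := fun w => by
    rw [hf, eval_map, aeval_def, algebraMap_int_eq]
  set g := f /ₘ (X - C z) with hg
  have hfg : (X - C z) * g = f :=
    mul_divByMonic_eq_iff_isRoot.2 (by rw [IsRoot, hroot, hz])
  have hfθ : f.eval (θ : ℂ) = 0 := by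
    rw [hroot, show (θ : ℂ) = algebraMap ℝ ℂ θ from rfl, aeval_algebraMap_apply, minpoly.aeval,
      map_zero]
  have hgθ : g.eval (θ : ℂ) = 0 := by
    rw [← hfg, eval_mul, eval_sub, eval_X, eval_C, mul_eq_zero, sub_eq_zero] at hfθ
    exact hfθ.resolve_left (Ne.symm hne)
  set e : ℕ → ℂ := fun n => ((lam * θ ^ n - a n : ℝ) : ℂ) with he
  have hec : Tendsto e atTop (𝓝 0) := by
    simpa [Function.comp_def, he] using (Complex.continuous_ofReal.tendsto 0).comp hε
  have ha : (fun n => (a n : ℂ)) = (fun n => (lam : ℂ) * (θ : ℂ) ^ n) - e := by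
    funext n; simp [he]
  have hu : ∀ᶠ n in atTop, shiftOp g e n = 0 := by
    refine eventually_zero_of_geometric hbig (tendsto_shiftOp g hec) ?_
    filter_upwards [eventually_minpoly_annihilates hε] with n hn
    rw [← shiftOp_mul, hfg]
    have h2 := congrArg (Int.castRingHom ℂ) hn
    rw [map_shiftOp, ← hf, map_zero] at h2
    simp only [eq_intCast] at h2
    rw [ha, map_sub, Pi.sub_apply, shiftOp_geom, hfθ, zero_mul, zero_sub, neg_eq_zero] at h2
    exact h2
  -- a rational functional turns `g` into a recurrence which is too short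
  obtain ⟨φ, hφ⟩ := LinearMap.exists_leftInverse_of_injective (Algebra.linearMap ℚ ℂ)
    (LinearMap.ker_eq_bot.2 (algebraMap ℚ ℂ).injective)
  have hφ1 : φ 1 = 1 := by simpa using LinearMap.congr_fun hφ 1
  set P : ℚ[X] := ∑ j ∈ range (g.natDegree + 1), monomial j (φ (g.coeff j)) with hP
  have hcoeff : ∀ t, P.coeff t = if t < g.natDegree + 1 then φ (g.coeff t) else 0 := fun t => by
    simp [hP, finsetSum_coeff, coeff_monomial]
  have hann : ∀ᶠ n in atTop, shiftOp P (fun k => (a k : ℚ)) n = 0 := by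
    filter_upwards [hu] with n hn
    have h1 : shiftOp g (fun k => (a k : ℂ)) n = 0 := by
      rw [ha, map_sub, Pi.sub_apply, shiftOp_geom, hgθ, zero_mul, hn, sub_zero]
    rw [shiftOp_apply_of_lt (N := g.natDegree + 1) (Nat.lt_succ_of_le
      (natDegree_le_iff_coeff_eq_zero.2 fun t ht => by rw [hcoeff, if_neg (by omega)]))]
    rw [shiftOp_apply] at h1
    have h2 := congrArg φ h1
    rw [map_sum, map_zero] at h2
    rw [← h2]
    refine Finset.sum_congr rfl fun j hj => ?_
    rw [hcoeff, if_pos (mem_range.1 hj), mul_comm (g.coeff j), ← zsmul_eq_mul, map_zsmul,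
      zsmul_eq_mul, mul_comm]
  have hθP := aeval_eq_zero_of_annihilates hθ hlam hε hann
  have hmz : (minpoly ℤ θ).Monic := minpoly.monic hint
  have hmq : minpoly ℚ θ = (minpoly ℤ θ).map (algebraMap ℤ ℚ) :=
    minpoly.isIntegrallyClosed_eq_field_fractions' ℚ hint
  have hd : f.natDegree = (minpoly ℚ θ).natDegree := by
    rw [hmq, hf, hmz.natDegree_map, hmz.natDegree_map]
  have hdeg : g.natDegree + 1 = (minpoly ℚ θ).natDegree := by
    rw [hg, natDegree_divByMonic _ (monic_X_sub_C z), natDegree_X_sub_C, ← hd]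
    have : 0 < f.natDegree := by rw [hd]; exact minpoly.natDegree_pos hint.tower_top
    omega
  have hgm : g.Monic := (monic_X_sub_C z).of_mul_monic_left (hfg ▸ hmz.map _)
  have hP1 : P.coeff g.natDegree = 1 := by
    rw [hcoeff, if_pos (Nat.lt_succ_self _), hgm.coeff_natDegree, hφ1]
  have hPne : P ≠ 0 := fun h => by simp [h] at hP1
  have h1 := natDegree_le_of_dvd (minpoly.dvd ℚ θ hθP) hPne
  have h2 : P.natDegree ≤ g.natDegree :=
    natDegree_le_iff_coeff_eq_zero.2 fun t ht => by rw [hcoeff, if_neg (by omega)]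
  omega

/-- `λ` lies in the field of `θ`. -/
theorem mem_adjoin_of_annihilates (hθ : 1 < θ) (hint : IsIntegral ℤ θ)
    (hε : Tendsto (fun n => lam * θ ^ n - a n) atTop (𝓝 0)) : lam ∈ ℚ⟮θ⟯ := by
  set t : ℚ⟮θ⟯ := IntermediateField.AdjoinSimple.gen ℚ θ with ht
  have hcoe : algebraMap ℚ⟮θ⟯ ℝ t = θ := IntermediateField.AdjoinSimple.algebraMap_gen ℚ θ
  set fK := (minpoly ℤ θ).map (Int.castRingHom ℚ⟮θ⟯) with hfK
  set f := (minpoly ℤ θ).map (Int.castRingHom ℝ) with hf
  have hmap : fK.map (algebraMap ℚ⟮θ⟯ ℝ) = f := by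
    rw [hfK, hf, Polynomial.map_map]
    congr 1
  have hfθ : f.eval θ = 0 := by
    rw [hf, eval_map, ← algebraMap_int_eq, ← aeval_def, minpoly.aeval]
  have hKt : fK.IsRoot t := by
    refine (algebraMap ℚ⟮θ⟯ ℝ).injective ?_
    rw [map_zero, ← eval_map_apply, hmap, hcoe, hfθ]
  set HK := fK /ₘ (X - C t) with hHK
  set H := HK.map (algebraMap ℚ⟮θ⟯ ℝ) with hH
  have hfH : (X - C θ) * H = f := by
    have h1 := congrArg (Polynomial.map (algebraMap ℚ⟮θ⟯ ℝ))
      (mul_divByMonic_eq_iff_isRoot.2 hKt)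
    rwa [Polynomial.map_mul, Polynomial.map_sub, Polynomial.map_X, Polynomial.map_C, hcoe,
      ← hHK, ← hH, hmap] at h1
  have hmem : H.eval θ ∈ ℚ⟮θ⟯ := by
    have h := eval_map_apply (p := HK) (algebraMap ℚ⟮θ⟯ ℝ) t
    rw [hcoe, ← hH] at h
    rw [h]
    exact (HK.eval t).2
  have hne : H.eval θ ≠ 0 := by
    have hsep := (minpoly.irreducible (hint.tower_top (A := ℚ))).separable.aeval_derivative_ne_zero
      (minpoly.aeval ℚ θ)
    rw [minpoly.isIntegrallyClosed_eq_field_fractions' ℚ hint, ← eval_map_algebraMap,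
      ← derivative_map, Polynomial.map_map, ← IsScalarTower.algebraMap_eq, algebraMap_int_eq,
      ← hf, ← hfH] at hsep
    simpa using hsep
  set e : ℕ → ℝ := fun n => lam * θ ^ n - a n with he
  have ha : (fun n => (a n : ℝ)) = (fun n => lam * θ ^ n) - e := by
    funext n; simp [he]
  have hu : ∀ᶠ n in atTop, shiftOp H e n = 0 := by
    refine eventually_zero_of_geometric (β := θ) (hθ.le.trans (Real.le_norm_self θ))
      (tendsto_shiftOp H hε) ?_
    filter_upwards [eventually_minpoly_annihilates hε] with n hn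
    rw [← shiftOp_mul, hfH]
    have h2 := congrArg (Int.castRingHom ℝ) hn
    rw [map_shiftOp, ← hf, map_zero] at h2
    simp only [eq_intCast] at h2
    rw [ha, map_sub, Pi.sub_apply, shiftOp_geom, hfθ, zero_mul, zero_sub, neg_eq_zero] at h2
    exact h2
  obtain ⟨n, hn⟩ := hu.exists
  have h1 : shiftOp H (fun k => (a k : ℝ)) n = H.eval θ * (lam * θ ^ n) := by
    rw [ha, map_sub, Pi.sub_apply, shiftOp_geom, hn, sub_zero]
  have h2 : shiftOp H (fun k => (a k : ℝ)) n ∈ ℚ⟮θ⟯ := by
    rw [shiftOp_apply]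
    refine sum_mem fun j _ => mul_mem ?_ (intCast_mem _ _)
    rw [hH, coeff_map]
    exact (HK.coeff j).2
  have hθn : θ ^ n ≠ 0 := pow_ne_zero _ (by linarith)
  have h3 : lam = shiftOp H (fun k => (a k : ℝ)) n * (H.eval θ * θ ^ n)⁻¹ := by
    rw [h1]; field_simp
  rw [h3]
  exact mul_mem h2 (inv_mem (mul_mem hmem (pow_mem
    (IntermediateField.mem_adjoin_simple_self ℚ θ) _)))

/-- **Pisot's criterion**, algebraic form. -/
theorem isPisot_of_recurrence (hθ : 1 < θ) (hlam : lam ≠ 0)
    (hε : Tendsto (fun n => lam * θ ^ n - a n) atTop (𝓝 0)) {R : ℚ[X]} (hR : R.Monic)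
    (h : ∀ᶠ n in atTop, shiftOp R (fun k => (a k : ℚ)) n = 0) :
    IsPisot θ ∧ lam ∈ ℚ⟮θ⟯ :=
  have hint := isIntegral_of_recurrence hθ hlam hε hR h
  ⟨⟨hθ, hint, fun _ hz hne => norm_lt_one_of_annihilates hθ hlam hint hε hz hne⟩,
    mem_adjoin_of_annihilates hθ hint hε⟩

end FA.PisotCriterion

end
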