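import Mathlib.RingTheory.Trace.Basic
import Mathlib.Algebra.Order.Round
import Mathlib.Analysis.Complex.Polynomial.Basic
import Fermat.Agent.PisotCriterion.Criterion

/-!
# The powers of a Pisot number approach integers geometrically

The trace of `θ ^ n` is an integer and differs from `θ ^ n` by the powers of the other conjugates.
-/

set_option autoImplicit false

noncomputable section

open Finset Polynomial
open scoped IntermediateField NNReal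

namespace FA.PisotCriterion

theorem exists_round_pow_le {θ : ℝ} (h : IsPisot θ) :
    ∃ C r : ℝ, 0 ≤ C ∧ 0 ≤ r ∧ r < 1 ∧ ∀ n : ℕ, |θ ^ n - round (θ ^ n)| ≤ C * r ^ n := by
  classical
  obtain ⟨-, hint, hconj⟩ := h
  have hx : IsIntegral ℚ θ := hint.tower_top
  have : FiniteDimensional ℚ ℚ⟮θ⟯ := IntermediateField.adjoin.finiteDimensional hx
  set t : ℚ⟮θ⟯ := IntermediateField.AdjoinSimple.gen ℚ θ with ht
  set σ₀ : ℚ⟮θ⟯ →ₐ[ℚ] ℂ := (Complex.ofRealAm.restrictScalars ℚ).comp ℚ⟮θ⟯.val with hσ₀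
  have hσ₀t : σ₀ t = (θ : ℂ) := rfl
  have hroot : aeval t (minpoly ℤ θ) = 0 := by
    refine (algebraMap ℚ⟮θ⟯ ℝ).injective ?_
    rw [map_zero, ← aeval_algebraMap_apply]
    exact minpoly.aeval ℤ θ
  have hsmall : ∀ σ ∈ (univ : Finset (ℚ⟮θ⟯ →ₐ[ℚ] ℂ)).erase σ₀, ‖σ t‖₊ < 1 := by
    intro σ hσ
    refine hconj _ ?_ fun he => (Finset.mem_erase.1 hσ).1 ?_
    · rw [show σ t = (σ.restrictScalars ℤ) t from rfl, aeval_algHom_apply, hroot, map_zero]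
    · refine (IntermediateField.adjoin.powerBasis hx).algHom_ext ?_
      rw [IntermediateField.adjoin.powerBasis_gen, ← ht]
      exact he.trans hσ₀t.symm
  set r : ℝ≥0 := ((univ : Finset (ℚ⟮θ⟯ →ₐ[ℚ] ℂ)).erase σ₀).sup fun σ => ‖σ t‖₊ with hr
  have hr1 : r < 1 := (Finset.sup_lt_iff (show (⊥ : ℝ≥0) < 1 from one_pos)).2 hsmall
  refine ⟨((univ : Finset (ℚ⟮θ⟯ →ₐ[ℚ] ℂ)).erase σ₀).card, r, Nat.cast_nonneg _, r.2,
    by exact_mod_cast hr1, fun n => ?_⟩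
  have hti : IsIntegral ℤ (t ^ n) :=
    ((isIntegral_algebraMap_iff (algebraMap ℚ⟮θ⟯ ℝ).injective).1 hint).pow n
  obtain ⟨m, hm⟩ := IsIntegrallyClosed.isIntegral_iff.1
    (Algebra.isIntegral_trace (L := ℚ) (F := ℚ⟮θ⟯) hti)
  have htr := trace_eq_sum_embeddings (K := ℚ) (L := ℚ⟮θ⟯) ℂ (x := t ^ n)
  rw [← Finset.add_sum_erase _ _ (Finset.mem_univ σ₀), ← hm, algebraMap_int_eq, eq_intCast,
    map_intCast, map_pow σ₀, hσ₀t] at htr
  refine (round_le _ m).trans ?_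
  have e : |θ ^ n - (m : ℝ)| =
      ‖∑ σ ∈ (univ : Finset (ℚ⟮θ⟯ →ₐ[ℚ] ℂ)).erase σ₀, σ (t ^ n)‖ := by
    have h2 : ((θ ^ n - (m : ℝ) : ℝ) : ℂ) =
        -∑ σ ∈ (univ : Finset (ℚ⟮θ⟯ →ₐ[ℚ] ℂ)).erase σ₀, σ (t ^ n) := by
      push_cast
      linear_combination -htr
    rw [← Real.norm_eq_abs, ← Complex.norm_real, h2, norm_neg]
  rw [e]
  refine (norm_sum_le_of_le _ (fun σ hσ => ?_)).trans_eq
    (by rw [Finset.sum_const, nsmul_eq_mul])
  rw [map_pow, norm_pow]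
  refine pow_le_pow_left₀ (norm_nonneg _) ?_ n
  exact_mod_cast Finset.le_sup (f := fun σ : ℚ⟮θ⟯ →ₐ[ℚ] ℂ => ‖σ t‖₊) hσ

end FA.PisotCriterion

end
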