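import Mathlib.Analysis.InnerProductSpace.Orientation
import Mathlib.Analysis.InnerProductSpace.PiL2
import Mathlib.LinearAlgebra.Matrix.Determinant.Basic
import Mathlib.Topology.Algebra.InfiniteSum.NatInt
import Mathlib.Topology.Algebra.InfiniteSum.Order
import Mathlib.Analysis.SpecificLimits.Normed
import Fermat.Agent.DworkRationality.Hankel
import Fermat.Agent.PisotCriterion.Op

/-!
# Hankel determinants of the nearest integers to `λ θ ^ n`

If `∑ (λ θ ^ n - a n) ^ 2` converges, the integral Hankel determinants of `a` tend to zero by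
Hadamard's inequality, hence vanish, hence `a` satisfies a rational linear recurrence.
-/

set_option autoImplicit false

noncomputable section

open Finset Filter Topology Module

namespace FA.PisotCriterion

/-- Hadamard's inequality for the columns. -/
theorem abs_det_le_prod_col {n : ℕ} (A : Matrix (Fin n) (Fin n) ℝ) :
    |A.det| ≤ ∏ j, √(∑ i, A i j ^ 2) := by
  have : Fact (finrank ℝ (EuclideanSpace ℝ (Fin n)) = n) := ⟨finrank_euclideanSpace_fin⟩
  let b := EuclideanSpace.basisFun (Fin n) ℝ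
  let o := b.toBasis.orientation
  let v : Fin n → EuclideanSpace ℝ (Fin n) := fun j => WithLp.toLp 2 (fun i => A i j)
  have h := o.abs_volumeForm_apply_le v
  rw [o.volumeForm_robust' b, Basis.det_apply] at h
  have hM : b.toBasis.toMatrix v = A := by
    ext i j
    simp [Basis.toMatrix_apply, b, v]
  rw [hM] at h
  refine h.trans_eq (Finset.prod_congr rfl fun j _ => ?_)
  simp [EuclideanSpace.norm_eq, v, sq_abs]

variable {θ lam : ℝ} {a : ℕ → ℤ}

/-- The determinants vanish. -/
theorem eventually_hankel_det_eq_zero (hθ : 1 < θ)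
    (h : Summable fun n => (lam * θ ^ n - a n) ^ 2) :
    ∃ N, ∀ m, N ≤ m → (Matrix.of fun i j : Fin m => a (i + j)).det = 0 := by
  set ε : ℕ → ℝ := fun n => lam * θ ^ n - a n with hε
  set T : ℕ → ℝ := fun j => ∑' i, ε (i + j) ^ 2 with hT
  have hT0 : Tendsto T atTop (𝓝 0) := tendsto_sum_nat_add fun n => ε n ^ 2
  have hTnn : ∀ j, 0 ≤ T j := fun j => tsum_nonneg fun i => sq_nonneg _
  have hTle : ∀ j k, ∑ i ∈ range k, ε (i + j) ^ 2 ≤ T j := fun j k =>
    ((summable_nat_add_iff j).2 h).sum_le_tsum _ fun i _ => sq_nonneg _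
  set C : ℝ := |lam| + √(T 0) with hC
  have hC0 : 0 ≤ C := by positivity
  have ha : ∀ i, |(a i : ℝ)| ≤ C * θ ^ i := fun i => by
    have hei : |ε i| ≤ √(T 0) := by
      refine Real.abs_le_sqrt ((Finset.single_le_sum (f := fun t => ε (t + 0) ^ 2)
        (fun t _ => sq_nonneg _) (mem_range.2 i.lt_succ_self)).trans (hTle 0 (i + 1)))
    have h1 : (1 : ℝ) ≤ θ ^ i := one_le_pow₀ hθ.le
    calc |(a i : ℝ)| = |lam * θ ^ i - ε i| := by simp [hε]
      _ ≤ |lam * θ ^ i| + |ε i| := abs_sub _ _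
      _ ≤ |lam| * θ ^ i + √(T 0) * θ ^ i := by
        rw [abs_mul, abs_of_pos (pow_pos (by linarith) i : (0 : ℝ) < θ ^ i)]
        nlinarith [Real.sqrt_nonneg (T 0)]
      _ = C * θ ^ i := by rw [hC]; ring
  set q : ℕ → ℝ := fun j => θ * √((2 * θ ^ 2 + 2) * T j) with hq
  have hqnn : ∀ j, 0 ≤ q j := fun j => mul_nonneg (by linarith) (Real.sqrt_nonneg _)
  have hq0 : Tendsto q atTop (𝓝 0) := by
    simpa using ((hT0.const_mul (2 * θ ^ 2 + 2)).sqrt).const_mul θ
  -- the bound for the determinant of order `k + 1`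
  have hbound : ∀ k, |((Matrix.of fun i j : Fin (k + 1) => a (i + j)).det : ℝ)| ≤
      (k + 1) * C * ∏ j ∈ range k, q j := by
    intro k
    set A : Matrix (Fin (k + 1)) (Fin (k + 1)) ℝ := Matrix.of fun i j => (a (i + j) : ℝ) with hA
    set B : Matrix (Fin (k + 1)) (Fin (k + 1)) ℝ := Matrix.of fun i =>
      Fin.cases (A i 0) fun j => A i j.succ - θ * A i j.castSucc with hB
    have hdet : ((Matrix.of fun i j : Fin (k + 1) => a (i + j)).det : ℝ) = B.det := by
      rw [Int.cast_det]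
      exact Matrix.det_eq_of_forall_col_eq_smul_add_pred (fun _ => θ)
        (fun i => by simp [hA, hB]) (fun i j => by simp [hA, hB])
    rw [hdet]
    refine (abs_det_le_prod_col B).trans ?_
    rw [Fin.prod_univ_succ]
    have hcol0 : √(∑ i, B i 0 ^ 2) ≤ (k + 1) * C * θ ^ k := by
      refine Real.sqrt_le_iff.2 ⟨by positivity, ?_⟩
      calc ∑ i, B i 0 ^ 2 ≤ ∑ _i : Fin (k + 1), (C * θ ^ k) ^ 2 :=
            Finset.sum_le_sum fun i _ => by
              have h1 : B i 0 = (a i : ℝ) := by simp [hA, hB]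
              rw [h1, ← sq_abs]
              exact pow_le_pow_left₀ (abs_nonneg _) ((ha _).trans
                (mul_le_mul_of_nonneg_left (pow_le_pow_right₀ hθ.le i.is_le) hC0)) 2
        _ = (k + 1) * (C * θ ^ k) ^ 2 := by simp
        _ ≤ ((k + 1) * C * θ ^ k) ^ 2 := by
          have : (1 : ℝ) ≤ (k : ℝ) + 1 := by simp
          nlinarith [sq_nonneg (C * θ ^ k)]
    have hcol : ∀ j : Fin k, √(∑ i, B i j.succ ^ 2) ≤ √((2 * θ ^ 2 + 2) * T j) := by
      intro j
      refine Real.sqrt_le_sqrt ?_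
      have h1 : ∀ i : Fin (k + 1),
          B i j.succ = θ * ε (i + j) - ε ((i : ℕ) + j + 1) := fun i => by
        simp only [hB, hA, hε, Matrix.of_apply, Fin.cases_succ, Fin.val_succ, Fin.val_castSucc,
          ← add_assoc, pow_succ]
        ring
      calc ∑ i : Fin (k + 1), B i j.succ ^ 2
          ≤ ∑ i : Fin (k + 1),
              (2 * θ ^ 2 * ε (i + j) ^ 2 + 2 * ε ((i : ℕ) + j + 1) ^ 2) :=
            Finset.sum_le_sum fun i _ => by
              rw [h1]
              nlinarith [sq_nonneg (θ * ε (i + j) + ε ((i : ℕ) + j + 1))]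
        _ = 2 * θ ^ 2 * ∑ i ∈ range (k + 1), ε (i + j) ^ 2 +
              2 * ∑ i ∈ range (k + 1), ε (i + j + 1) ^ 2 := by
          rw [Finset.sum_add_distrib, ← Finset.mul_sum, ← Finset.mul_sum,
            Fin.sum_univ_eq_sum_range (fun i => ε (i + j) ^ 2) (k + 1),
            Fin.sum_univ_eq_sum_range (fun i => ε (i + j + 1) ^ 2) (k + 1)]
        _ ≤ 2 * θ ^ 2 * T j + 2 * T j := by
          gcongr
          · exact hTle _ _
          · refine le_trans ?_ (hTle j (k + 2))
            rw [Finset.sum_range_succ' (fun i => ε (i + j) ^ 2) (k + 1)]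
            exact le_add_of_le_of_nonneg (le_of_eq (Finset.sum_congr rfl fun i _ => by
              rw [add_right_comm])) (sq_nonneg _)
        _ = (2 * θ ^ 2 + 2) * T j := by ring
    refine (mul_le_mul hcol0 (Finset.prod_le_prod (fun j _ => Real.sqrt_nonneg _)
      fun j _ => hcol j) (Finset.prod_nonneg fun j _ => Real.sqrt_nonneg _) (by positivity)).trans
      (le_of_eq ?_)
    rw [Fin.prod_univ_eq_prod_range (fun j => √((2 * θ ^ 2 + 2) * T j)) k]
    simp only [hq, Finset.prod_mul_distrib, Finset.prod_const, card_range]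
    ring
  -- the product decreases faster than `k`
  obtain ⟨J, hJ⟩ := eventually_atTop.1 (hq0.eventually_le_const (show (0 : ℝ) < 1 / 4 by norm_num))
  set P : ℝ := ∏ j ∈ range J, q j with hP
  have hP0 : 0 ≤ P := Finset.prod_nonneg fun j _ => hqnn j
  have hprod : ∀ d, ∏ j ∈ range (J + d), q j ≤ P * (1 / 4) ^ d := fun d => by
    rw [Finset.prod_range_add]
    refine mul_le_mul_of_nonneg_left ?_ hP0
    calc ∏ x ∈ range d, q (J + x) ≤ ∏ _x ∈ range d, (1 / 4 : ℝ) :=
          Finset.prod_le_prod (fun x _ => hqnn _) fun x _ => hJ _ (Nat.le_add_right _ _)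
      _ = (1 / 4) ^ d := by simp
  have hsmall : Tendsto (fun d : ℕ => ((J : ℝ) + 1) * C * P * (1 / 2) ^ d) atTop (𝓝 0) := by
    simpa using (tendsto_pow_atTop_nhds_zero_of_lt_one (by norm_num : (0 : ℝ) ≤ 1 / 2)
      (by norm_num)).const_mul (((J : ℝ) + 1) * C * P)
  obtain ⟨D, hD⟩ := eventually_atTop.1 (hsmall.eventually_lt_const (show (0 : ℝ) < 1 by norm_num))
  refine ⟨J + D + 1, fun m hm => ?_⟩
  obtain ⟨d, rfl, hd⟩ : ∃ d, m = J + d + 1 ∧ D ≤ d := ⟨m - J - 1, by omega, by omega⟩
  have hk : ((J + d : ℕ) : ℝ) + 1 ≤ ((J : ℝ) + 1) * 2 ^ d := by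
    have h2 : (d : ℝ) + 1 ≤ 2 ^ d := by exact_mod_cast Nat.lt_two_pow_self
    push_cast
    nlinarith [(Nat.cast_nonneg J : (0 : ℝ) ≤ J), (Nat.cast_nonneg d : (0 : ℝ) ≤ d)]
  have hlt : |((Matrix.of fun i j : Fin (J + d + 1) => a (i + j)).det : ℝ)| < 1 := by
    refine (hbound (J + d)).trans_lt (lt_of_le_of_lt ?_ (hD d hd))
    calc (((J + d : ℕ) : ℝ) + 1) * C * ∏ j ∈ range (J + d), q j
        ≤ ((J : ℝ) + 1) * 2 ^ d * C * (P * (1 / 4) ^ d) :=
          mul_le_mul (mul_le_mul_of_nonneg_right hk hC0) (hprod d)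
            (Finset.prod_nonneg fun j _ => hqnn j) (by positivity)
      _ = ((J : ℝ) + 1) * C * P * (2 ^ d * (1 / 4) ^ d) := by ring
      _ = _ := by rw [← mul_pow]; norm_num
  exact Int.abs_lt_one_iff.1 (by exact_mod_cast hlt)

/-- A rational linear recurrence for the nearest integers. -/
theorem exists_monic_annihilator (hθ : 1 < θ) (hlam : lam ≠ 0)
    (h : Summable fun n => (lam * θ ^ n - a n) ^ 2) :
    ∃ R : Polynomial ℚ, R.Monic ∧
      ∀ᶠ n in atTop, shiftOp R (fun k => (a k : ℚ)) n = 0 := by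
  classical
  have h0 : Tendsto (fun n => lam * θ ^ n - a n) atTop (𝓝 0) := by
    rw [tendsto_zero_iff_abs_tendsto_zero]
    simpa [Real.sqrt_sq_eq_abs, Function.comp_def] using h.tendsto_atTop_zero.sqrt
  obtain ⟨s, hs⟩ : ∃ s, a s ≠ 0 := by
    by_contra hall
    push Not at hall
    simp only [hall, Int.cast_zero, sub_zero] at h0
    have := ge_of_tendsto' ((tendsto_zero_iff_abs_tendsto_zero _).1 h0) (b := |lam|) fun n => by
      simpa [abs_mul] using le_mul_of_one_le_right (abs_nonneg lam)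
        (one_le_pow₀ (n := n) (le_abs_self θ |>.trans' hθ.le))
    exact hlam (abs_nonpos_iff.1 this)
  have h' : Summable fun n => (lam * θ ^ s * θ ^ n - (a (s + n) : ℤ)) ^ 2 := by
    refine ((summable_nat_add_iff s).2 h).congr fun n => ?_
    rw [pow_add, add_comm n s]
    ring
  obtain ⟨N, hN⟩ := eventually_hankel_det_eq_zero hθ h'
  obtain ⟨M, c, hcM, hc⟩ := DworkRationality.exists_recurrence
    (fun n => (a (s + n) : ℚ)) (by simpa using hs) (N₀ := N) fun m hm => by
      rw [show DworkRationality.hankel (fun n => (a (s + n) : ℚ)) m =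
        (Matrix.of fun i j : Fin m => a (s + (i + j))).map (Int.castRingHom ℚ) from rfl,
        ← RingHom.mapMatrix_apply, ← RingHom.map_det, hN m hm, map_zero]
  set R : Polynomial ℚ := ∑ j ∈ range (M + 1), Polynomial.monomial j (c j) with hR
  have hcoeff : ∀ t, R.coeff t = if t ≤ M then c t else 0 := fun t => by
    simp [hR, Polynomial.finsetSum_coeff, Polynomial.coeff_monomial]
  refine ⟨R, Polynomial.monic_of_natDegree_le_of_coeff_eq_one M
    (Polynomial.natDegree_le_iff_coeff_eq_zero.2 fun t ht => by simp [hcoeff, not_le.2 ht])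
    (by simp [hcoeff, hcM]), eventually_atTop.2 ⟨s, fun n hn => ?_⟩⟩
  obtain ⟨i, rfl⟩ := Nat.exists_eq_add_of_le hn
  rw [shiftOp_apply_of_lt (N := M + 1) (Nat.lt_succ_of_le
    (Polynomial.natDegree_le_iff_coeff_eq_zero.2 fun t ht => by simp [hcoeff, not_le.2 ht]))]
  rw [← hc i]
  refine Finset.sum_congr rfl fun j hj => ?_
  rw [hcoeff, if_pos (Nat.lt_succ_iff.1 (mem_range.1 hj)), add_assoc]

end FA.PisotCriterion

end
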