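import Mathlib.RingTheory.Algebraic.Basic
import Mathlib.RingTheory.Localization.Integral
import Fermat.Agent.PisotCriterion.Hankel
import Fermat.Agent.PisotCriterion.Converse

/-!
# Pisot's theorem

* `isPisot_of_summable`: if `θ > 1`, `λ ≠ 0` and `∑ ‖λ θ ^ n‖ ^ 2 < ∞` then `θ` is a Pisot number
  and `λ ∈ ℚ(θ)`;
* `isPisot_of_tendsto`: the same for algebraic `θ` with `‖λ θ ^ n‖ → 0` (Hardy).
-/

set_option autoImplicit false

noncomputable section

open Finset Polynomial Filter Topology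
open scoped IntermediateField

namespace FA.PisotCriterion

variable {θ lam : ℝ}

/-- **Pisot's theorem.** -/
theorem isPisot_of_summable (hθ : 1 < θ) (hlam : lam ≠ 0)
    (h : Summable fun n => (lam * θ ^ n - round (lam * θ ^ n)) ^ 2) :
    IsPisot θ ∧ lam ∈ ℚ⟮θ⟯ := by
  obtain ⟨R, hR, hann⟩ := exists_monic_annihilator (a := fun n => round (lam * θ ^ n)) hθ hlam h
  refine isPisot_of_recurrence hθ hlam ?_ hR hann
  rw [tendsto_zero_iff_abs_tendsto_zero]
  simpa [Real.sqrt_sq_eq_abs, Function.comp_def] using h.tendsto_atTop_zero.sqrt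

/-- **The theorem of Hardy.** -/
theorem isPisot_of_tendsto (hθ : 1 < θ) (halg : IsAlgebraic ℚ θ) (hlam : lam ≠ 0)
    (h : Tendsto (fun n => lam * θ ^ n - round (lam * θ ^ n)) atTop (𝓝 0)) :
    IsPisot θ ∧ lam ∈ ℚ⟮θ⟯ := by
  have hi : IsIntegral ℚ θ := halg.isIntegral
  set R := minpoly ℚ θ with hR
  refine isPisot_of_recurrence (a := fun n => round (lam * θ ^ n)) hθ hlam h
    (minpoly.monic hi) ?_
  obtain ⟨b, hb, hbR⟩ := IsLocalization.integerNormalization_spec (nonZeroDivisors ℤ) R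
  rw [Algebra.smul_def, Polynomial.algebraMap_apply, algebraMap_int_eq] at hbR
  set G := IsLocalization.integerNormalization (nonZeroDivisors ℤ) R
  have hG : aeval θ G = 0 := by
    rw [← aeval_map_algebraMap ℚ, algebraMap_int_eq, hbR, map_mul, hR, minpoly.aeval, mul_zero]
  filter_upwards [eventually_annihilates_of_root (a := fun n => round (lam * θ ^ n)) hG h]
    with n hn
  have h2 := congrArg (Int.castRingHom ℚ) hn
  rw [map_shiftOp, map_zero, hbR, shiftOp_mul, eq_intCast, ← monomial_zero_left,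
    shiftOp_monomial, add_zero] at h2
  exact (mul_eq_zero.1 h2).resolve_left (Int.cast_ne_zero.2 (nonZeroDivisors.ne_zero hb))

/-- **The powers of a Pisot number.** -/
theorem summable_of_isPisot (h : IsPisot θ) :
    Summable fun n => (θ ^ n - round (θ ^ n)) ^ 2 := by
  obtain ⟨C, r, -, hr0, hr1, hle⟩ := exists_round_pow_le h
  have hr2 : r ^ 2 < 1 := pow_lt_one₀ hr0 hr1 two_ne_zero
  refine ((summable_geometric_of_lt_one (sq_nonneg r) hr2).mul_left (C ^ 2)).of_nonneg_of_le
    (fun n => sq_nonneg _) fun n => ?_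
  rw [← sq_abs, ← pow_mul, Nat.mul_comm, pow_mul, ← mul_pow]
  exact pow_le_pow_left₀ (abs_nonneg _) (hle n) 2

/-- **The characterisation of Pisot numbers.** -/
theorem isPisot_iff (hθ : 1 < θ) :
    IsPisot θ ↔ ∃ l : ℝ, l ≠ 0 ∧ Summable fun n => (l * θ ^ n - round (l * θ ^ n)) ^ 2 :=
  ⟨fun h => ⟨1, one_ne_zero, by simpa only [one_mul] using summable_of_isPisot h⟩,
    fun ⟨_, hl, h⟩ => (isPisot_of_summable hθ hl h).1⟩

/-- No multiples of the powers of a non-integral rational tend to the integers. -/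
theorem not_tendsto_of_rat {q : ℚ} (hq : 1 < q) (hden : q.den ≠ 1) (hlam : lam ≠ 0) :
    ¬Tendsto (fun n => lam * (q : ℝ) ^ n - round (lam * (q : ℝ) ^ n)) atTop (𝓝 0) := by
  intro h
  have hq' : (1 : ℝ) < (q : ℝ) := by exact_mod_cast hq
  have hint : IsIntegral ℤ (algebraMap ℚ ℝ q) := by
    rw [eq_ratCast]
    exact (isPisot_of_tendsto hq'
      (by simpa using isAlgebraic_algebraMap (R := ℚ) (A := ℝ) q) hlam h).1.2.1
  rw [isIntegral_algebraMap_iff (algebraMap ℚ ℝ).injective,
    IsIntegrallyClosed.isIntegral_iff] at hint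
  obtain ⟨m, hm⟩ := hint
  exact hden (by rw [← hm, algebraMap_int_eq, eq_intCast, Rat.den_intCast])

end FA.PisotCriterion

end
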